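import Fermat.Agent.BachLogSquare.Split
import Fermat.Agent.ClassGroupGRH.Generation
import Fermat.Agent.Root.SummaryChebotarevSplit

/-!
# Bach's theorem with exactly `log²`

On the hypothesis of Riemann for `ζ_K` and for its unramified abelian extensions the class group of
`K` is generated by the primes of degree one of norm `O (log² (2 |d|))`.
-/

set_option autoImplicit false
set_option linter.style.haveILetI false

noncomputable section

universe u

open NumberField IsDedekindDomain Module
open FA.DedekindExplicit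
open FA.ArtinHooley (FieldRH)
open FA.ArtinRec (toClassGroup unitModulus_ne_bot)
open FA.Ext (primeIdeal)
open scoped nonZeroDivisors Classical

namespace FA.BachLogSquare

/-- The hypothesis of Riemann for `ζ_K` and its abelian extensions unramified everywhere. -/
def ClassFieldsRH (K : Type u) [Field K] [NumberField K] : Prop :=
  FieldRH K ∧ ∀ (E : Type u) [Field E] [NumberField E] [Algebra K E] [IsGalois K E],
    IsMulCommutative (E ≃ₐ[K] E) → Algebra.Unramified (𝓞 K) (𝓞 E) →
      (∀ w : InfinitePlace K, w.IsUnramifiedIn E) → FieldRH E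

/-- The classes of the primes of degree one of norm at most `x`. -/
def degOneClasses (K : Type u) [Field K] [NumberField K] (x : ℝ) : Set (ClassGroup (𝓞 K)) :=
  {c | ∃ v : HeightOneSpectrum (𝓞 K), (Ideal.absNorm v.asIdeal).Prime ∧
    (Ideal.absNorm v.asIdeal : ℝ) ≤ x ∧ ClassGroup.mk0 (primeIdeal v) = c}

/-- The field cut out by a proper subgroup of the class group, in `log (2 |d|)`. -/
theorem exists_subExtension_discScale (K : Type u) [Field K] [NumberField K] (hK : ClassFieldsRH K)
    {H : Subgroup (ClassGroup (𝓞 K))} (hH : H ≠ ⊤) :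
    ∃ (E : Type u) (_ : Field E) (_ : NumberField E) (_ : Algebra K E) (_ : IsGalois K E),
      2 ≤ finrank K E ∧ discScale E ≤ finrank K E * discScale K ∧ FieldRH E ∧
      ∀ v : HeightOneSpectrum (𝓞 K), ClassGroup.mk0 (primeIdeal v) ∈ H →
        (v.asIdeal.primesOver (𝓞 E)).ncard = finrank K E := by
  obtain ⟨E, _, _, _, _, _, hE⟩ := FA.ArtinRec.exists_classField (unitModulus_ne_bot K)
    (∅ : Set (InfinitePlace K)) (H.comap (toClassGroup K))
    ((FA.ArtinRec.ker_toClassGroup K).ge.trans
      (MonoidHom.ker_le_comap (toClassGroup K) H))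
  haveI : Algebra.Unramified (𝓞 K) (𝓞 E) :=
    FA.HeckeDiff.unramified_of_not_isRam fun v => hE.unram v (sup_top_eq _)
  have hd := FA.HeckeDiff.natAbs_discr_of_unramified (K := K) (L := E)
  have h2 : 2 ≤ finrank K E := by
    obtain ⟨ω, hsurj, hker, -⟩ := hE.artin
    by_contra hlt
    have h1 : Nat.card (E ≃ₐ[K] E) = 1 := by
      have := Module.finrank_pos (R := K) (M := E)
      rw [IsGalois.card_aut_eq_finrank]
      omega
    haveI := (Nat.card_eq_one_iff_unique.1 h1).1
    refine hH ((Subgroup.eq_top_iff' _).2 fun c => ?_)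
    obtain ⟨γ, rfl⟩ := FA.ArtinRec.toClassGroup_surjective K c
    have : γ ∈ ω.ker := Subsingleton.elim _ _
    rwa [hker] at this
  refine ⟨E, inferInstance, inferInstance, inferInstance, inferInstance, h2, ?_,
    hK.2 E inferInstance inferInstance fun w => hE.unramInf w (Set.notMem_empty w), fun v hv => ?_⟩
  · have h1 : (1 : ℝ) ≤ finrank K E := by exact_mod_cast (one_le_two.trans h2)
    rw [discScale, discScale, hd, Nat.cast_pow, Real.log_mul two_ne_zero (pow_ne_zero _
      (Nat.cast_ne_zero.2 (Int.natAbs_ne_zero.2 (discr_ne_zero K)))), Real.log_pow,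
      Real.log_mul two_ne_zero (Nat.cast_ne_zero.2 (Int.natAbs_ne_zero.2 (discr_ne_zero K))),
      mul_add]
    exact add_le_add (le_mul_of_one_le_left (Real.log_nonneg one_le_two) h1) le_rfl
  · obtain ⟨Q, hQ, hτ⟩ := FA.ArtinRec.artinAt_spec (L := E) v
    have hone : FA.ArtinRec.artinAt E v = 1 := (hE.artinAt_eq_one_iff v (sup_top_eq _)).2 (by
      rw [Subgroup.mem_comap, FA.ArtinRec.toClassGroup_apply]
      exact hv)
    rw [hone] at hτ
    refine (FA.Chebotarev.split_iff_frobenius_one (v := v) (Q := Q.asIdeal) Q.isMaximal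
      (congrArg HeightOneSpectrum.asIdeal hQ) ?_ hτ).2 rfl
    by_contra hI
    exact hE.unram v (sup_top_eq _) ⟨Q, hQ, hI⟩

/-- **Bach's theorem with exactly `log²`.** -/
theorem exists_generation_logSquare : ∃ A : ℝ, 0 < A ∧ ∀ (K : Type u) [Field K] [NumberField K],
    ClassFieldsRH K → Subgroup.closure (degOneClasses K (A * discScale K ^ 2)) = ⊤ := by
  obtain ⟨A, hA, h⟩ := exists_nonsplit_logSquare.{u, u}
  refine ⟨A, hA, fun K _ _ hK => ?_⟩
  by_contra hne
  obtain ⟨E, _, _, _, _, h2, hsize, hE, hsplit⟩ := exists_subExtension_discScale K hK hne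
  obtain ⟨v, hp, -, hns, hle⟩ := h hK.1 hE h2 (discScale K) le_rfl hsize
  exact hns (hsplit v (Subgroup.subset_closure ⟨v, hp, hle, rfl⟩))

/-- **Class number one is decided by the primes up to `A log² (2 |d|)`.** -/
theorem exists_classNumber_eq_one_iff : ∃ A : ℝ, 0 < A ∧
    ∀ (K : Type u) [Field K] [NumberField K], ClassFieldsRH K → (classNumber K = 1 ↔
      ∀ v : HeightOneSpectrum (𝓞 K), (Ideal.absNorm v.asIdeal).Prime →
        (Ideal.absNorm v.asIdeal : ℝ) ≤ A * discScale K ^ 2 →
          Submodule.IsPrincipal v.asIdeal) := by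
  obtain ⟨A, hA, h⟩ := exists_generation_logSquare.{u}
  refine ⟨A, hA, fun K _ _ hK => ⟨fun h1 v _ _ => ?_, fun hv => ?_⟩⟩
  · haveI := classNumber_eq_one_iff.1 h1
    exact IsPrincipalIdealRing.principal _
  · have hcl : degOneClasses K (A * discScale K ^ 2) ⊆ {1} := by
      rintro c ⟨v, hp, hle, rfl⟩
      exact (ClassGroup.mk0_eq_one_iff (primeIdeal v).2).2 (hv v hp hle)
    have hbot : (⊤ : Subgroup (ClassGroup (𝓞 K))) = ⊥ :=
      (h K hK).symm.trans (le_bot_iff.1 ((Subgroup.closure_mono hcl).trans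
        (Subgroup.closure_le _ |>.2 (Set.singleton_subset_iff.2 (one_mem _)))))
    haveI := Subgroup.subsingleton_iff.1 (subsingleton_of_bot_eq_top hbot.symm)
    rw [classNumber]
    exact Fintype.card_eq_one_iff.2 ⟨1, fun c => Subsingleton.elim _ _⟩

end FA.BachLogSquare

end
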