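import Fermat.Agent.DedekindExplicit.Least

/-!
# Moments of the primes of degree one

On the hypothesis of Riemann the moment of `Λ_K` is `x² / 2 + O (log (2 |d|) x^(3/2))`, and so is
that of the prime ideals whose norm is prime.
-/

set_option autoImplicit false
set_option linter.style.haveILetI false

noncomputable section

universe u

open NumberField IsDedekindDomain Module Finset Ideal
open FA.DedekindZF FA.DedekindZeroCount FA.DedekindHadamard FA.DedekindExplicit
open FA.DedekindPIT (mangoldtK mangoldtK_nonneg mangoldtK_le mangoldtK_eq_of_prime momentSum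
  primeLog primesLE_fiber)
open FA.ArtinHooley (fieldSize FieldRH)
open FA.Hecke (primesLE mem_primesLE)
open scoped Real Classical ArithmeticFunction.vonMangoldt

namespace FA.BachLogSquare

/-- **The moment of `Λ_K` on the hypothesis of Riemann.** -/
theorem exists_moment_bound : ∃ A, 0 ≤ A ∧ ∀ (K : Type u) [Field K] [NumberField K],
    FieldRH K → ∀ x : ℝ, 1 ≤ x →
      |momentSum (mangoldtK K) x - x ^ 2 / 2| ≤ A * discScale K * (x * √x) := by
  obtain ⟨Cz, hCz, hzero⟩ := exists_norm_zero_sum.{u}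
  obtain ⟨Cc, hCc, hcoef⟩ := exists_norm_linCoef.{u}
  obtain ⟨Cl, hCl, hleft⟩ := exists_norm_leftInt.{u}
  refine ⟨22 * Cc + 8 + 11 * Cz + 11 * Cl, by positivity, fun K _ _ hRH x hx => ?_⟩
  obtain ⟨S, hS⟩ : ∃ S, S = discScale K := ⟨_, rfl⟩
  obtain ⟨hS0, -, hn4, hH⟩ := scale_bounds K
  rw [← hS] at hS0 hn4 hH ⊢
  have hs1 : 1 ≤ √x := Real.one_le_sqrt.2 hx
  have hxs : x ≤ x * √x := le_mul_of_one_le_right (by linarith) hs1
  have hsxs : √x ≤ x * √x := le_mul_of_one_le_left (Real.sqrt_nonneg x) hx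
  have h := congrArg Complex.re (momentSum_eq K hx)
  simp only [Complex.add_re, Complex.sub_re, ← Complex.ofReal_pow, Complex.re_ofReal_mul,
    Complex.div_ofNat_re, Complex.ofReal_re, mul_comm (linCoef K)] at h
  have hlog : Real.log x ≤ 2 * √x := by
    have := Real.log_le_sub_one_of_pos (Real.sqrt_pos.2 (show 0 < x by linarith))
    rw [Real.log_sqrt (by linarith)] at this
    linarith
  have c1 : |x * (linCoef K).re| ≤ 22 * Cc * S * (x * √x) := by
    have := ((Complex.abs_re_le_norm (linCoef K)).trans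
      (hcoef K (1 / 2) le_rfl (by norm_num) (zerosLeftOf_of_RH K hRH)))
    rw [abs_mul, abs_of_nonneg (by linarith : 0 ≤ x)]
    have h2 : |(linCoef K).re| ≤ 22 * Cc * S := by
      have := mul_le_mul_of_nonneg_left hH hCc
      norm_num at *
      linarith
    rw [mul_comm x]
    refine (mul_le_mul_of_nonneg_right h2 (by linarith)).trans ?_
    exact mul_le_mul_of_nonneg_left hxs (by positivity)
  have u1 : |unitCount K * (x * Real.log x)| ≤ 8 * S * (x * √x) := by
    rw [abs_mul, abs_of_nonneg (mul_nonneg (by linarith : 0 ≤ x) (Real.log_nonneg hx))]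
    refine (mul_le_mul ((abs_unitCount_le K).trans hn4)
      (mul_le_mul_of_nonneg_left hlog (by linarith : 0 ≤ x))
      (mul_nonneg (by linarith) (Real.log_nonneg hx)) (by linarith)).trans (le_of_eq ?_)
    ring
  have z1 : |(∑' ρ, (xiMult K ρ : ℂ) * rawKer x ρ).re| ≤ 11 * Cz * S * (x * √x) := by
    refine (Complex.abs_re_le_norm _).trans ((hzero K hRH x hx).trans ?_)
    exact mul_le_mul_of_nonneg_right (by linarith [mul_le_mul_of_nonneg_left hH hCz])
      (by positivity)
  have l1 : |(leftInt K x).re| ≤ 11 * Cl * S * (x * √x) := by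
    refine (Complex.abs_re_le_norm _).trans ((hleft K x (by linarith)).trans ?_)
    have := (mul_le_mul_of_nonneg_left ((fieldSize_le_height K 0).trans hH) hCl)
    refine (mul_le_mul_of_nonneg_right this (Real.sqrt_nonneg x)).trans ?_
    rw [show Cl * (11 * S) = 11 * Cl * S by ring]
    exact mul_le_mul_of_nonneg_left hsxs (by positivity)
  rw [abs_le] at c1 u1 z1 l1 ⊢
  constructor <;> linarith [c1.1, c1.2, u1.1, u1.2, z1.1, z1.2, l1.1, l1.2]

variable (K : Type u) [Field K] [NumberField K]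

/-- The moment of the primes of norm at most `x`. -/
def primeMoment (s : Finset (HeightOneSpectrum (𝓞 K))) (x : ℝ) : ℝ :=
  ∑ v ∈ s, Real.log (absNorm v.asIdeal) * (x - absNorm v.asIdeal)

/-- The primes of norm at most `x` and of prime norm. -/
def degOne (x : ℝ) : Finset (HeightOneSpectrum (𝓞 K)) :=
  (primesLE K ⌊x⌋₊).filter fun v => (absNorm v.asIdeal).Prime

theorem norm_le_of_mem {v : HeightOneSpectrum (𝓞 K)} {x : ℝ} (hx : 0 ≤ x)
    (hv : v ∈ primesLE K ⌊x⌋₊) : (absNorm v.asIdeal : ℝ) ≤ x :=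
  (Nat.cast_le.2 (mem_primesLE.1 hv)).trans (Nat.floor_le hx)

theorem primeMoment_all_eq {x : ℝ} :
    primeMoment K (primesLE K ⌊x⌋₊) x = momentSum (primeLog K) x := by
  rw [primeMoment, momentSum, ← sum_fiberwise_of_maps_to (t := Icc 1 ⌊x⌋₊)
    (g := fun v : HeightOneSpectrum (𝓞 K) => absNorm v.asIdeal)
    fun v hv => mem_Icc.2 ⟨le_of_lt (lt_of_lt_of_le one_lt_two (FA.Ext.two_le_absNorm v)),
      mem_primesLE.1 hv⟩]
  refine sum_congr rfl fun n hn => ?_
  rw [primeLog, ← primesLE_fiber K (mem_Icc.1 hn).2, sum_mul]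
  exact sum_congr rfl fun v hv => by rw [(Finset.mem_filter.1 hv).2]

theorem primeMoment_degOne_eq {x : ℝ} :
    primeMoment K (degOne K x) x =
      momentSum (fun n => if n.Prime then primeLog K n else 0) x := by
  rw [primeMoment, momentSum, degOne, ← sum_fiberwise_of_maps_to (t := Icc 1 ⌊x⌋₊)
    (g := fun v : HeightOneSpectrum (𝓞 K) => absNorm v.asIdeal)
    fun v hv => mem_Icc.2 ⟨le_of_lt (lt_of_lt_of_le one_lt_two (FA.Ext.two_le_absNorm v)),
      mem_primesLE.1 (Finset.mem_filter.1 hv).1⟩]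
  refine sum_congr rfl fun n hn => ?_
  split_ifs with hp
  · rw [primeLog, ← primesLE_fiber K (mem_Icc.1 hn).2, sum_mul]
    refine sum_congr ?_ fun v hv => by rw [(Finset.mem_filter.1 hv).2]
    ext v
    simp only [Finset.mem_filter]
    exact ⟨fun h => ⟨h.1.1, h.2⟩, fun h => ⟨⟨h.1, h.2 ▸ hp⟩, h.2⟩⟩
  · rw [zero_mul]
    refine sum_eq_zero fun v hv => absurd ?_ hp
    rw [Finset.mem_filter, Finset.mem_filter] at hv
    exact hv.2 ▸ hv.1.2

/-- Subsets of the primes weigh less than `Λ_K`. -/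
theorem primeMoment_le {x : ℝ} (hx : 0 ≤ x) {s : Finset (HeightOneSpectrum (𝓞 K))}
    (hs : ∀ v ∈ s, (absNorm v.asIdeal : ℝ) ≤ x) :
    primeMoment K s x ≤ momentSum (mangoldtK K) x := by
  have h1 : primeMoment K s x ≤ primeMoment K (primesLE K ⌊x⌋₊) x := by
    refine sum_le_sum_of_subset_of_nonneg (fun v hv => mem_primesLE.2 (Nat.le_floor (hs v hv)))
      fun v hv _ => ?_
    exact mul_nonneg (Real.log_natCast_nonneg _) (sub_nonneg.2 (norm_le_of_mem K hx hv))
  refine h1.trans ?_
  rw [primeMoment_all_eq, momentSum, momentSum]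
  refine sum_le_sum fun n hn => mul_le_mul_of_nonneg_right ?_ (sub_nonneg.2
    ((Nat.cast_le.2 (mem_Icc.1 hn).2).trans (Nat.floor_le hx)))
  exact le_trans (le_of_eq (sum_congr rfl fun v _ => (one_mul _).symm))
    (FA.Hecke.sum_le_fiberSum (w := fun _ => (1 : ℝ)) (fun _ => zero_le_one) (fun _ => le_rfl) _
      fun v hv => (Finset.mem_filter.1 hv).2)

/-- **The primes of degree one carry the moment.** -/
theorem exists_degOne_moment : ∃ A, 0 ≤ A ∧ ∀ (K : Type u) [Field K] [NumberField K],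
    FieldRH K → ∀ x : ℝ, 1 ≤ x →
      x ^ 2 / 2 - A * discScale K * (x * √x) ≤ primeMoment K (degOne K x) x := by
  obtain ⟨A, hA, hm⟩ := exists_moment_bound.{u}
  obtain ⟨Cp, hpsi⟩ := Chebyshev.psi_sub_theta_le_mul_sqrt
  refine ⟨A + 4 * |Cp|, by positivity, fun K _ _ hRH x hx => ?_⟩
  obtain ⟨hS0, -, hn4, -⟩ := scale_bounds K
  have h1 := (abs_le.1 (hm K hRH x hx)).1
  have hn0 : (0 : ℝ) ≤ finrank ℚ K := Nat.cast_nonneg _
  have key : momentSum (mangoldtK K) x - primeMoment K (degOne K x) x ≤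
      x * (finrank ℚ K * (Chebyshev.psi x - Chebyshev.theta x)) := by
    rw [primeMoment_degOne_eq, momentSum, momentSum, ← sum_sub_distrib, Chebyshev.psi,
      Chebyshev.theta, Finset.sum_filter, ← sum_sub_distrib, mul_sum, mul_sum]
    refine le_trans (le_of_eq (sum_congr rfl fun n _ => (sub_mul _ _ _).symm))
      (le_trans (sum_le_sum (g := fun n : ℕ => x * (finrank ℚ K *
        (Λ n - if n.Prime then Real.log n else 0))) fun n hn => ?_) (le_of_eq rfl))
    have hnx : (n : ℝ) ≤ x := (Nat.cast_le.2 (mem_Icc.1 hn).2).trans (Nat.floor_le (by linarith))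
    rw [mul_comm x]
    by_cases hp : n.Prime
    · rw [mangoldtK_eq_of_prime K hp, if_pos hp, if_pos hp,
        ArithmeticFunction.vonMangoldt_apply_prime hp]
      simp
    · rw [if_neg hp, if_neg hp, sub_zero, sub_zero]
      exact mul_le_mul (mangoldtK_le K n) (by linarith [(Nat.cast_nonneg n : (0 : ℝ) ≤ n)])
        (by linarith) (mul_nonneg hn0 ArithmeticFunction.vonMangoldt_nonneg)
  have e1 : x * (finrank ℚ K * (Chebyshev.psi x - Chebyshev.theta x)) ≤
      4 * |Cp| * discScale K * (x * √x) := by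
    have hc : Chebyshev.psi x - Chebyshev.theta x ≤ |Cp| * √x :=
      (hpsi x).trans (mul_le_mul_of_nonneg_right (le_abs_self Cp) (Real.sqrt_nonneg x))
    have := mul_le_mul_of_nonneg_left (mul_le_mul hn4 hc
      (sub_nonneg.2 (Chebyshev.theta_le_psi x)) (by linarith)) (show 0 ≤ x by linarith)
    linarith
  linarith

end FA.BachLogSquare

end
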