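import Fermat.Agent.BachLogSquare.Moment
import Fermat.Agent.ChebotarevGRH.Ramified

/-!
# A small prime which does not split completely, with exactly `log²`

If the primes of degree one of norm `≤ x` that are unramified in a Galois `E/K` of degree `m` all
split completely, each gives `m` primes of `E` of the same norm, so `m` times the moment of `K` is
at most that of `E` up to the ramified primes, and so `√x = O (log (2 |d_K|) + log (2 |d_E|) / m)`.
-/

set_option autoImplicit false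
set_option linter.style.haveILetI false

noncomputable section

universe u v

open NumberField IsDedekindDomain Module Finset Ideal
open FA.DedekindExplicit
open FA.DedekindPIT (mangoldtK momentSum)
open FA.ArtinHooley (FieldRH)
open FA.Hecke (primesLE mem_primesLE)
open scoped Real Classical

namespace FA.BachLogSquare

variable {K : Type u} {E : Type v} [Field K] [NumberField K] [Field E] [NumberField E]
  [Algebra K E] [IsGalois K E]

/-- Over a prime that splits completely all the primes have its norm. -/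
theorem absNorm_of_split {v : HeightOneSpectrum (𝓞 K)}
    (hv : (v.asIdeal.primesOver (𝓞 E)).ncard = finrank K E) {Q : Ideal (𝓞 E)}
    (hQ : Q ∈ v.asIdeal.primesOver (𝓞 E)) : absNorm Q = absNorm v.asIdeal := by
  haveI := v.isMaximal
  haveI := hQ.1
  haveI := hQ.2
  have h := Ideal.ncard_primesOver_mul_ramificationIdxIn_mul_inertiaDegIn v.asIdeal (𝓞 E)
    (E ≃ₐ[K] E)
  rw [hv, IsGalois.card_aut_eq_finrank] at h
  have h2 := (mul_eq_one.1 (Nat.eq_of_mul_eq_mul_left (finrank_pos (R := K) (M := E))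
    (h.trans (mul_one _).symm))).2
  rw [Ideal.inertiaDegIn_eq_inertiaDeg v.asIdeal Q (E ≃ₐ[K] E)] at h2
  rw [← Ideal.absNorm_pow_inertiaDeg v.asIdeal Q, h2, pow_one]

variable (E) in
/-- The primes of `E` of norm at most `x` over `v`. -/
def aboveLE (x : ℝ) (v : HeightOneSpectrum (𝓞 K)) : Finset (HeightOneSpectrum (𝓞 E)) :=
  (primesLE E ⌊x⌋₊).filter fun Q => Q.asIdeal.under (𝓞 K) = v.asIdeal

theorem card_aboveLE {x : ℝ} {v : HeightOneSpectrum (𝓞 K)} (hx : (absNorm v.asIdeal : ℝ) ≤ x)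
    (hv : (v.asIdeal.primesOver (𝓞 E)).ncard = finrank K E) :
    (aboveLE E x v).card = finrank K E := by
  rw [← hv, ← Finset.card_image_of_injective (aboveLE E x v)
    (fun P Q h => HeightOneSpectrum.ext h : Function.Injective HeightOneSpectrum.asIdeal),
    ← Set.ncard_coe_finset]
  congr 1
  ext Q
  simp only [Finset.coe_image, Set.mem_image, Finset.mem_coe, aboveLE, Finset.mem_filter]
  constructor
  · rintro ⟨P, ⟨-, hP⟩, rfl⟩
    exact ⟨P.isPrime, ⟨hP.symm⟩⟩
  · intro hQ
    refine ⟨⟨Q, hQ.1, Ideal.ne_bot_of_mem_primesOver v.ne_bot hQ⟩, ⟨mem_primesLE.2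
      (Nat.le_floor ?_), hQ.2.over.symm⟩, rfl⟩
    rw [absNorm_of_split hv hQ]
    exact hx

/-- The moment of primes that split completely, lifted to `E`. -/
theorem finrank_mul_primeMoment_le {x : ℝ} (hx : 0 ≤ x) {s : Finset (HeightOneSpectrum (𝓞 K))}
    (hs : ∀ v ∈ s, (absNorm v.asIdeal : ℝ) ≤ x ∧
      (v.asIdeal.primesOver (𝓞 E)).ncard = finrank K E) :
    finrank K E * primeMoment K s x ≤ momentSum (mangoldtK E) x := by
  refine le_trans (le_of_eq ?_) (primeMoment_le E hx (s := s.biUnion (aboveLE E x)) fun Q hQ => ?_)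
  · rw [primeMoment, primeMoment, sum_biUnion fun v _ w _ hvw => Finset.disjoint_left.2
      fun Q hv hw => hvw (HeightOneSpectrum.ext
        ((Finset.mem_filter.1 hv).2.symm.trans (Finset.mem_filter.1 hw).2)), mul_sum]
    refine sum_congr rfl fun v hv => ?_
    rw [sum_congr rfl (g := fun _ => Real.log (absNorm v.asIdeal) * (x - absNorm v.asIdeal))
      fun Q hQ => ?_, sum_const, card_aboveLE (hs v hv).1 (hs v hv).2, nsmul_eq_mul]
    rw [absNorm_of_split (hs v hv).2 ⟨Q.isPrime, ⟨(Finset.mem_filter.1 hQ).2.symm⟩⟩]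
  · obtain ⟨v, -, hQ⟩ := mem_biUnion.1 hQ
    exact norm_le_of_mem E hx (Finset.mem_filter.1 hQ).1

/-- **The ramified primes are light.** -/
theorem finrank_mul_sum_log_ramified_le {T : Finset (HeightOneSpectrum (𝓞 K))}
    (hT : ∀ v ∈ T, ∃ Q ∈ v.asIdeal.primesOver (𝓞 E), Q.ramificationIdx (𝓞 K) ≠ 1) :
    (finrank K E : ℝ) * ∑ v ∈ T, Real.log (absNorm v.asIdeal) ≤
      2 * Real.log (((discr E).natAbs : ℕ) : ℝ) := by
  have hdvd : ∏ v ∈ T, v.asIdeal.map (algebraMap (𝓞 K) (𝓞 E)) ∣
      differentIdeal (𝓞 K) (𝓞 E) ^ 2 := by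
    refine Finset.prod_dvd_of_coprime (fun v _ w _ hne => ?_) fun v hv => ?_
    · show IsCoprime _ _
      haveI := v.isMaximal
      haveI := w.isMaximal
      rw [Ideal.isCoprime_iff_sup_eq, ← Ideal.map_sup, Ideal.IsMaximal.coprime_of_ne inferInstance
        inferInstance fun e => hne (HeightOneSpectrum.ext e), Ideal.map_top]
    · obtain ⟨Q, hQ, he⟩ := hT v hv
      haveI := hQ.1
      haveI := hQ.2
      exact FA.ChebGRH.map_dvd_different_sq hQ.2.over.symm
        (dvd_differentIdeal_iff.2 fun h => he (Ideal.ramificationIdx_eq_one_iff.2 h))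
  have h1 := map_dvd Ideal.absNorm hdvd
  rw [map_prod, map_pow] at h1
  simp only [Ideal.absNorm_algebraMap] at h1
  have h2 : Ideal.absNorm (differentIdeal (𝓞 K) (𝓞 E)) ^ 2 ∣ (discr E).natAbs ^ 2 :=
    pow_dvd_pow_of_dvd (Dvd.intro _
      (natAbs_discr_eq_absNorm_differentIdeal_mul_natAbs_discr_pow K (𝓞 K) E (𝓞 E)).symm) 2
  have h3 := Nat.le_of_dvd (pow_pos (Int.natAbs_pos.2 (discr_ne_zero E)) 2) (h1.trans h2)
  rw [Finset.prod_pow, ← IsFractionRing.finrank_eq (𝓞 K) K (𝓞 E) E] at h3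
  have hpos : ∀ v ∈ T, ((Ideal.absNorm v.asIdeal : ℕ) : ℝ) ≠ 0 := fun v _ => by
    have := FA.Ext.two_le_absNorm v
    positivity
  rw [← Real.log_prod hpos, ← Real.log_pow, show (2 : ℝ) * Real.log (((discr E).natAbs : ℕ) : ℝ) =
    Real.log ((((discr E).natAbs : ℕ) : ℝ) ^ 2) by rw [Real.log_pow]; norm_num]
  refine Real.log_le_log (pow_pos (Finset.prod_pos fun v hv => ?_) _) (by exact_mod_cast h3)
  exact lt_of_le_of_ne (Nat.cast_nonneg _) (hpos v hv).symm

/-- **A prime `≪ R²` of degree one, unramified and not split completely.** -/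
theorem exists_nonsplit_logSquare : ∃ A : ℝ, 0 < A ∧ ∀ {K : Type u} {E : Type v} [Field K]
    [NumberField K] [Field E] [NumberField E] [Algebra K E] [IsGalois K E],
    FieldRH K → FieldRH E → 2 ≤ finrank K E → ∀ R : ℝ, discScale K ≤ R →
      discScale E ≤ finrank K E * R →
      ∃ v : HeightOneSpectrum (𝓞 K), (absNorm v.asIdeal).Prime ∧
        (∀ Q ∈ v.asIdeal.primesOver (𝓞 E), Q.ramificationIdx (𝓞 K) = 1) ∧
        (v.asIdeal.primesOver (𝓞 E)).ncard ≠ finrank K E ∧
        (absNorm v.asIdeal : ℝ) ≤ A * R ^ 2 := by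
  obtain ⟨A₀, hA₀, hlow⟩ := exists_degOne_moment.{u}
  obtain ⟨A₁, hA₁, hup⟩ := exists_moment_bound.{v}
  obtain ⟨c, hc⟩ : ∃ c, c = 4 * (A₀ + A₁ + 2) + 2 := ⟨_, rfl⟩
  have hc2 : 10 ≤ c := by rw [hc]; linarith
  refine ⟨c ^ 2, by positivity, fun {K E} _ _ _ _ _ _ hK hE hm R hKR hER => ?_⟩
  have hR : 0.69 < R := (scale_bounds K).1.trans_le hKR
  obtain ⟨x, hx⟩ : ∃ x, x = c ^ 2 * R ^ 2 := ⟨_, rfl⟩
  rw [← hx]
  have hsx : √x = c * R := by
    rw [hx, ← mul_pow, Real.sqrt_sq (mul_nonneg (by linarith) (by linarith))]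
  have hcR : 1 ≤ c * R := by nlinarith
  have hx1 : 1 ≤ x := by
    rw [hx, ← mul_pow]
    exact one_le_pow₀ hcR
  by_contra hno
  push Not at hno
  obtain ⟨T, hT⟩ : ∃ T, T = (degOne K x).filter fun v =>
      ∃ Q ∈ v.asIdeal.primesOver (𝓞 E), Q.ramificationIdx (𝓞 K) ≠ 1 := ⟨_, rfl⟩
  have hG : ∀ v ∈ degOne K x \ T, (absNorm v.asIdeal : ℝ) ≤ x ∧
      (v.asIdeal.primesOver (𝓞 E)).ncard = finrank K E := fun v hv => by
    obtain ⟨hv1, hv2⟩ := Finset.mem_sdiff.1 hv
    obtain ⟨h1, h2⟩ := Finset.mem_filter.1 hv1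
    have hle := norm_le_of_mem K (by linarith) h1
    refine ⟨hle, by_contra fun h => (hno v h2 (fun Q hQ => by_contra fun he => hv2 ?_) h).not_ge
      hle⟩
    rw [hT]
    exact Finset.mem_filter.2 ⟨hv1, Q, hQ, he⟩
  have e1 := finrank_mul_primeMoment_le (E := E) (by linarith) hG
  have e2 : finrank K E * primeMoment K T x ≤ x * (2 * (finrank K E * R)) := by
    have hd : Real.log (((discr E).natAbs : ℕ) : ℝ) ≤ finrank K E * R := by
      refine le_trans ?_ hER
      rw [discScale, Real.log_mul two_ne_zero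
        (Nat.cast_ne_zero.2 (Int.natAbs_ne_zero.2 (discr_ne_zero E)))]
      exact le_add_of_nonneg_left (Real.log_nonneg one_le_two)
    refine le_trans ?_ (mul_le_mul_of_nonneg_left
      ((finrank_mul_sum_log_ramified_le (E := E) (T := T)
        fun v hv => by rw [hT] at hv; exact (Finset.mem_filter.1 hv).2).trans
        (mul_le_mul_of_nonneg_left hd zero_le_two)) (by linarith))
    rw [primeMoment, mul_sum, mul_sum, mul_sum]
    refine sum_le_sum fun v _ => ?_
    rw [mul_left_comm x]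
    refine mul_le_mul_of_nonneg_left ?_ (Nat.cast_nonneg _)
    rw [mul_comm x]
    exact mul_le_mul_of_nonneg_left (sub_le_self _ (Nat.cast_nonneg _))
      (Real.log_natCast_nonneg _)
  have e3 : primeMoment K (degOne K x) x =
      primeMoment K (degOne K x \ T) x + primeMoment K T x := by
    rw [primeMoment, primeMoment, primeMoment, sum_sdiff (hT ▸ Finset.filter_subset _ _)]
  have hm2 : (2 : ℝ) ≤ finrank K E := by exact_mod_cast hm
  have l1 := mul_le_mul_of_nonneg_left (hlow K hK x hx1) (show (0 : ℝ) ≤ finrank K E by linarith)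
  have l2 := (abs_le.1 (hup E hE x hx1)).2
  rw [e3, mul_add] at l1
  rw [hsx] at l1 l2
  have b0 : A₀ * discScale K * (x * (c * R)) ≤ A₀ * R * (x * (c * R)) := by gcongr
  have b1 : A₁ * discScale E * (x * (c * R)) ≤ A₁ * (finrank K E * R) * (x * (c * R)) := by gcongr
  have b0' := mul_le_mul_of_nonneg_left b0 (show (0 : ℝ) ≤ finrank K E by linarith)
  have b2 : x * (2 * (finrank K E * R)) ≤ x * (2 * (finrank K E * R)) * (c * R) :=
    le_mul_of_one_le_right (by positivity) hcR
  have hxx : x * (c * R) * (c * R) = x ^ 2 := by rw [hx]; ring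
  have key : (finrank K E - 1 : ℝ) * (c * R) ≤ 2 * finrank K E * R * (A₀ + A₁ + 2) := by
    refine le_of_mul_le_mul_right ?_ (show 0 < x * (c * R) / 2 by positivity)
    linear_combination l1 + e1 + e2 + l2 + b0' + b1 + b2 +
      ((finrank K E - 1 : ℝ) / 2) * hxx
  have h4 := mul_le_mul_of_nonneg_right (show (finrank K E : ℝ) ≤ 2 * (finrank K E - 1) by linarith)
    (show 0 ≤ 2 * R * (A₀ + A₁ + 2) by positivity)
  have h5 : (finrank K E - 1 : ℝ) * (c * R) =
      (finrank K E - 1) * (4 * R * (A₀ + A₁ + 2)) + (finrank K E - 1) * (2 * R) := by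
    rw [hc]; ring
  have h6 : 0 < (finrank K E - 1 : ℝ) * (2 * R) := mul_pos (by linarith) (by linarith)
  linarith

end FA.BachLogSquare

end
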